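import Mathlib
import Fermat.Prelude.Def_ExtCitation_AdmissibleExtension_v2
import Fermat.Agent.MUL.S17.W.OpenStab

/-!
# S14 via a mini class field theory: interfaces

Blueprint: `NOTES/blueprint-S14-miniCFT.md`.  This file only contains *definitions* of the
statements exchanged between the work packages (as `Prop`s), so that every work package can be
developed and compiled independently and without placeholders:

* an owner of a work package proves `theorem xxx : Fermat.Agent.S14.Xxx` in his own file;
* a user of a work package takes `(h : Fermat.Agent.S14.Xxx)` as a hypothesis.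
-/

set_option autoImplicit false

open NumberField
open scoped nonZeroDivisors

namespace Fermat.Agent.S14

/-- `σ` acts trivially on `𝓞 M / P` (elementary form of "`σ` is in the inertia group of `P`"). -/
def InInertia {E M : Type} [Field E] [Field M] [NumberField M] [Algebra E M]
    (σ : M ≃ₐ[E] M) (P : Ideal (𝓞 M)) : Prop :=
  ∀ x : 𝓞 M, ∃ y ∈ P, σ (x : M) - (x : M) = (y : M)

/-- `M/E` is unramified at every finite prime: all inertia groups are trivial. -/
def UnramifiedEverywhere (E M : Type) [Field E] [Field M] [NumberField M] [Algebra E M] : Prop :=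
  ∀ (P : Ideal (𝓞 M)), P.IsPrime → P ≠ ⊥ → ∀ σ : M ≃ₐ[E] M, InInertia σ P → σ = 1

/-- The ideal classes of `E` which contain the relative norm of a nonzero ideal of `M`. -/
def normClasses (E M : Type) [Field E] [NumberField E] [Field M] [NumberField M] [Algebra E M] :
    Set (ClassGroup (𝓞 E)) :=
  {c | ∃ (I : (Ideal (𝓞 M))⁰) (J : (Ideal (𝓞 E))⁰),
      (J : Ideal (𝓞 E)) = Ideal.relNorm (𝓞 E) (I : Ideal (𝓞 M)) ∧ ClassGroup.mk0 J = c}

/-- **(H1) First inequality** (algebraic; unit Herbrand quotient + Hilbert 90):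
for a Galois extension `M/E` of number fields of odd prime degree, unramified at all finite
primes, the norm map on ideal classes is not surjective. -/
def FirstIneq : Prop :=
  ∀ (p : ℕ) (E M : Type) [Field E] [NumberField E] [Field M] [NumberField M] [Algebra E M]
    [IsGalois E M], p.Prime → p ≠ 2 → Module.finrank E M = p → UnramifiedEverywhere E M →
    ∃ c : ClassGroup (𝓞 E), c ∉ normClasses E M

/-- **(H2) Second inequality** (analytic; "universal norm index inequality"):
for a Galois extension `M/E` of number fields, every subgroup of the class group of `E`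
containing all norm classes has index at most `[M : E]`. -/
def SecondIneq : Prop :=
  ∀ (E M : Type) [Field E] [NumberField E] [Field M] [NumberField M] [Algebra E M]
    [IsGalois E M] (N : Subgroup (ClassGroup (𝓞 E))),
    (∀ c ∈ normClasses E M, c ∈ N) → N.index ≤ Module.finrank E M

/-- **(H2') Second inequality, Kummer case** (the only case used by the crossing argument):
`E` contains a primitive `p`-th root of unity, `M/E` is Galois of degree `p` and unramified. -/
def SecondIneqKummer : Prop :=
  ∀ (p : ℕ) (E M : Type) [Field E] [NumberField E] [Field M] [NumberField M] [Algebra E M]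
    [IsGalois E M] (ζ : E) (N : Subgroup (ClassGroup (𝓞 E))), p.Prime → p ≠ 2 →
    IsPrimitiveRoot ζ p → Module.finrank E M = p → UnramifiedEverywhere E M →
    (∀ c ∈ normClasses E M, c ∈ N) → N.index ≤ p

theorem SecondIneq.kummer (h : SecondIneq) : SecondIneqKummer := by
  intro p E M _ _ _ _ _ _ ζ N _ _ _ hdeg _ hN
  exact hdeg ▸ h E M N hN

/-- **(H3) Stickelberger for Jacobi sums**: for a prime `Q` of `ℤ[ζ_p]` above a rational prime
`ℓ ≡ 1 mod p`, the ideal `∏_{0 < s < p/2} σ_s⁻¹(Q)` is principal (generated by the Jacobi sum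
`J(χ_Q, χ_Q)`), where `σ_s ζ = ζ ^ s`. -/
def StickelbergerJacobi : Prop :=
  ∀ (p : ℕ) (K : Type) [Field K] [NumberField K] [IsCyclotomicExtension {p} ℚ K] (ζ : K)
    (σ : ℕ → (K ≃ₐ[ℚ] K)) (ℓ : ℕ) (Q : Ideal (𝓞 K)),
    p.Prime → p ≠ 2 → IsPrimitiveRoot ζ p → (∀ s, 0 < s → s < p → σ s ζ = ζ ^ s) →
    ℓ.Prime → ℓ % p = 1 → Q.IsPrime → (ℓ : 𝓞 K) ∈ Q →
    (∏ s ∈ Finset.Icc 1 ((p - 1) / 2),
      Ideal.comap (galRestrict ℤ ℚ K (𝓞 K) (σ s)) Q).IsPrincipal

/-- **Core statement**: there is no Galois number field `L ⊇ ℚ(ζ_p)` with `[L : ℚ(ζ_p)] = p`,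
unramified over `ℚ(ζ_p)` at every finite prime, on which `Gal(ℚ(ζ_p)/ℚ)` acts through the
inverse of the cyclotomic character: `g⁻¹ τ g = τ ^ χ(g)`. -/
def NoExt : Prop :=
  ∀ (p : ℕ) (L : Type) [Field L] [NumberField L] [IsGalois ℚ L] (ζ : L),
    p.Prime → 3 ≤ p → IsPrimitiveRoot ζ p →
    Nat.card {τ : L ≃ₐ[ℚ] L // τ ζ = ζ} = p →
    (∀ (g τ : L ≃ₐ[ℚ] L) (k : ℕ), τ ζ = ζ → g ζ = ζ ^ k → g⁻¹ * τ * g = τ ^ k) →
    (∀ (P : Ideal (𝓞 L)), P.IsPrime → P ≠ ⊥ →
      ∀ τ : L ≃ₐ[ℚ] L, τ ζ = ζ → InInertia τ P → τ = 1) →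
    False

/-- **(H5) Front end**: the frozen statement follows from the core statement. -/
def FrontEnd : Prop :=
  NoExt → ∀ (p : ℕ) [Fact p.Prime], 3 ≤ p → ExtCitation.ExtVanishingCts p

/-- **(H4) Crossing with cyclotomic fields** (Artin's argument): the core statement follows
from the two inequalities and Stickelberger's relation. -/
def Crossing : Prop :=
  FirstIneq → SecondIneqKummer → StickelbergerJacobi → NoExt

end Fermat.Agent.S14
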