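/-
S14 mini-CFT, work package X1 (AuxPrime): auxiliary primes for the cyclotomic crossing.

For an odd prime `p` and a natural number `x ≥ 2` with `x ≡ 1 mod p` there is a prime `r ≠ p`
with `orderOf (x : ZMod r) = p` (a prime factor of `Φ_p(x) / p`).  Applied to `x = ℓ` and
`x = ℓ ^ p` this gives two distinct primes `r, r' ∉ {p, ℓ}` with `orderOf (ℓ : ZMod r) = p` and
`orderOf (ℓ : ZMod r') = p ^ 2`.
-/
import Fermat.Agent.MUL.Orig.S14.CrossingInterface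
import Fermat.Agent.MUL.S14.Crossing.CycFrob

set_option autoImplicit false

namespace Fermat.Agent.S14

/-- `(x - 1) * ∑_{i<p} x^i = x^p - 1` in `ℕ` (for `1 ≤ x`). -/
theorem auxPrime_mul_geom (x p : ℕ) (hx : 1 ≤ x) :
    (x - 1) * (∑ i ∈ Finset.range p, x ^ i) = x ^ p - 1 := by
  have h1 : 1 ≤ x ^ p := Nat.one_le_pow p x (by omega)
  zify [hx, h1]
  have := mul_geom_sum (x : ℤ) p
  linarith [this]

/-- The geometric sum `∑_{i<p} x^i` has `p`-adic valuation exactly one when `x ≡ 1 mod p`,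
`x ≥ 2` and `p` is an odd prime. -/
theorem auxPrime_padicValNat_geom {p x : ℕ} (hp : p.Prime) (hp2 : p ≠ 2) (hx : 2 ≤ x)
    (hxp : x % p = 1) : padicValNat p (∑ i ∈ Finset.range p, x ^ i) = 1 := by
  have : Fact p.Prime := ⟨hp⟩
  have hpodd : Odd p := hp.odd_of_ne_two hp2
  have hdvd : p ∣ x - 1 := (Nat.modEq_iff_dvd' (by omega)).mp (by
    show 1 % p = x % p
    rw [hxp, Nat.mod_eq_of_lt hp.one_lt])
  have hndvd : ¬ p ∣ x := by
    intro h
    have : x % p = 0 := Nat.mod_eq_zero_of_dvd h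
    omega
  have hLTE : padicValNat p (x ^ p - 1 ^ p) = padicValNat p (x - 1) + padicValNat p p :=
    padicValNat.pow_sub_pow hpodd (by omega) hdvd hndvd hp.ne_zero
  rw [one_pow, padicValNat_self] at hLTE
  have hmul := auxPrime_mul_geom x p (by omega)
  have hS0 : (∑ i ∈ Finset.range p, x ^ i) ≠ 0 := by
    have : 0 < ∑ i ∈ Finset.range p, x ^ i :=
      Finset.sum_pos (fun i _ => pow_pos (by omega) i) ⟨0, Finset.mem_range.mpr hp.pos⟩
    omega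
  have hx1 : x - 1 ≠ 0 := by omega
  rw [← hmul, padicValNat.mul hx1 hS0] at hLTE
  omega

/-- The geometric sum `∑_{i<p} x^i` exceeds `p` when `x ≥ 2` and `p ≥ 2`. -/
theorem auxPrime_lt_geom {p x : ℕ} (hp : 2 ≤ p) (hx : 2 ≤ x) :
    p < ∑ i ∈ Finset.range p, x ^ i := by
  have h1 : ∀ i ∈ Finset.range p, 1 ≤ x ^ i := fun i _ => Nat.one_le_pow _ _ (by omega)
  have h2 : ∑ i ∈ Finset.range p, (1 : ℕ) = p := by simp
  have hlt : ∑ i ∈ Finset.range p, (1 : ℕ) < ∑ i ∈ Finset.range p, x ^ i := by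
    apply Finset.sum_lt_sum h1
    refine ⟨1, Finset.mem_range.mpr (by omega), ?_⟩
    simp only [pow_one]
    omega
  omega

/-- **Core of X1**: an odd prime `p` and `x ≥ 2`, `x ≡ 1 mod p`: there is a prime `r ≠ p` dividing
`∑_{i<p} x^i` with `orderOf (x : ZMod r) = p`. -/
theorem auxPrime_exists_orderOf_eq {p x : ℕ} (hp : p.Prime) (hp2 : p ≠ 2) (hx : 2 ≤ x)
    (hxp : x % p = 1) :
    ∃ r : ℕ, r.Prime ∧ r ≠ p ∧ r ∣ ∑ i ∈ Finset.range p, x ^ i ∧ orderOf (x : ZMod r) = p := by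
  have : Fact p.Prime := ⟨hp⟩
  set S := ∑ i ∈ Finset.range p, x ^ i with hS
  have hval : padicValNat p S = 1 := auxPrime_padicValNat_geom hp hp2 hx hxp
  have hlt : p < S := auxPrime_lt_geom hp.two_le hx
  have hS0 : S ≠ 0 := by omega
  -- S = p * m with m > 1 and p ∤ m
  have hpS : p ∣ S := by
    have : 1 ≤ padicValNat p S := by omega
    exact dvd_of_one_le_padicValNat this
  obtain ⟨m, hm⟩ := hpS
  have hm1 : m ≠ 1 := by
    rintro rfl
    omega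
  have hpm : ¬ p ∣ m := by
    intro h
    obtain ⟨k, rfl⟩ := h
    have hk0 : k ≠ 0 := by
      rintro rfl
      simp at hm
      exact hS0 hm
    have : p ^ 2 ∣ S := ⟨k, by rw [hm]; ring⟩
    have h2 : 2 ≤ padicValNat p S := (padicValNat_dvd_iff_le hS0).mp this
    omega
  obtain ⟨r, hr, hrm⟩ := Nat.exists_prime_and_dvd hm1
  have hrp : r ≠ p := by
    rintro rfl
    exact hpm hrm
  have hrS : r ∣ S := hm ▸ Dvd.dvd.mul_left hrm p
  refine ⟨r, hr, hrp, hrS, ?_⟩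
  have : Fact r.Prime := ⟨hr⟩
  -- x^p = 1 in ZMod r
  have hpow : ((x : ZMod r)) ^ p = 1 := by
    have h1 : r ∣ x ^ p - 1 := by
      rw [← auxPrime_mul_geom x p (by omega)]
      exact Dvd.dvd.mul_left hrS _
    have h2 : ((x ^ p - 1 : ℕ) : ZMod r) = 0 := (ZMod.natCast_eq_zero_iff _ _).mpr h1
    have h3 : 1 ≤ x ^ p := Nat.one_le_pow _ _ (by omega)
    rw [Nat.cast_sub h3, Nat.cast_pow, Nat.cast_one, sub_eq_zero] at h2
    exact h2
  have hord : orderOf (x : ZMod r) ∣ p := orderOf_dvd_of_pow_eq_one hpow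
  rcases (Nat.dvd_prime hp).mp hord with h1 | h1
  · -- order 1: x = 1 mod r, so S = p mod r, so r ∣ p
    exfalso
    have hx1 : (x : ZMod r) = 1 := orderOf_eq_one_iff.mp h1
    have hS1 : ((S : ℕ) : ZMod r) = (p : ZMod r) := by
      rw [hS, Nat.cast_sum]
      simp [hx1]
    have hS2 : ((S : ℕ) : ZMod r) = 0 := (ZMod.natCast_eq_zero_iff _ _).mpr hrS
    rw [hS2] at hS1
    have : r ∣ p := (ZMod.natCast_eq_zero_iff _ _).mp hS1.symm
    exact hrp ((Nat.prime_dvd_prime_iff_eq hr hp).mp this)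
  · exact h1

/-- **(X1) AuxPrime**: for an odd prime `p` and a prime `ℓ ≡ 1 mod p` there are primes `r ≠ r'`,
both different from `p` and `ℓ`, with `orderOf (ℓ : ZMod r) = p` and
`orderOf (ℓ : ZMod r') = p ^ 2`. -/
theorem auxPrime_orders {p ℓ : ℕ} (hp : p.Prime) (hp2 : p ≠ 2) (hℓ : 2 ≤ ℓ) (hℓp : ℓ % p = 1) :
    ∃ r r' : ℕ, r.Prime ∧ r'.Prime ∧ r ≠ r' ∧ r ≠ p ∧ r' ≠ p ∧ ¬ r ∣ ℓ ∧ ¬ r' ∣ ℓ ∧
      orderOf (ℓ : ZMod r) = p ∧ orderOf (ℓ : ZMod r') = p ^ 2 := by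
  obtain ⟨r, hr, hrp, -, hor⟩ := auxPrime_exists_orderOf_eq hp hp2 hℓ hℓp
  have hℓp' : ℓ ^ p % p = 1 := by
    rw [Nat.pow_mod, hℓp, one_pow, Nat.mod_eq_of_lt hp.one_lt]
  have hℓ2 : 2 ≤ ℓ ^ p := le_trans hℓ (Nat.le_self_pow hp.ne_zero ℓ)
  obtain ⟨r', hr', hr'p, -, hor'⟩ := auxPrime_exists_orderOf_eq hp hp2 hℓ2 hℓp'
  have : Fact r.Prime := ⟨hr⟩
  have : Fact r'.Prime := ⟨hr'⟩
  -- order of ℓ mod r' is p^2
  have hor2 : orderOf (ℓ : ZMod r') = p ^ 2 := by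
    rw [Nat.cast_pow] at hor'
    have h := orderOf_pow' (ℓ : ZMod r') hp.ne_zero
    rw [hor'] at h
    set o := orderOf (ℓ : ZMod r') with ho
    have ho0 : o ≠ 0 := by
      intro h0
      rw [h0] at h
      simp at h
      exact hp.ne_zero h
    by_cases hpo : p ∣ o
    · have hg : Nat.gcd o p = p := Nat.gcd_eq_right hpo
      rw [hg] at h
      obtain ⟨k, hk⟩ := hpo
      rw [hk, Nat.mul_div_cancel_left _ hp.pos] at h
      rw [hk, ← h]
      ring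
    · have hg : Nat.gcd o p = 1 := by
        rw [Nat.gcd_comm]
        exact (Nat.Prime.coprime_iff_not_dvd hp).mpr hpo
      rw [hg, Nat.div_one] at h
      exact absurd (h ▸ dvd_refl p) hpo
  have hne : r ≠ r' := by
    rintro rfl
    rw [hor] at hor2
    have : p = p ^ 2 := hor2
    have hp1 : 1 < p := hp.one_lt
    nlinarith
  have hunit : ∀ {q : ℕ} [Fact q.Prime] {n : ℕ}, orderOf (ℓ : ZMod q) = n → 0 < n → ¬ q ∣ ℓ := by
    intro q _ n hn hn0 hdvd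
    have h0 : (ℓ : ZMod q) = 0 := (ZMod.natCast_eq_zero_iff _ _).mpr hdvd
    have h1 : (ℓ : ZMod q) ^ n = 1 := hn ▸ pow_orderOf_eq_one _
    rw [h0, zero_pow (by omega)] at h1
    exact zero_ne_one h1
  exact ⟨r, r', hr, hr', hne, hrp, hr'p, hunit hor hp.pos, hunit hor2 (pow_pos hp.pos 2),
    hor, hor2⟩

/-- **(X1) AuxPrime**, divisibility form used in the blueprint (explicit version). -/
theorem auxPrime_explicit {p ℓ : ℕ} (hp : p.Prime) (hp2 : p ≠ 2) (hℓ : ℓ.Prime) (hℓp : ℓ % p = 1) :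
    ∃ r r' : ℕ, r.Prime ∧ r'.Prime ∧ r ≠ r' ∧ r ≠ p ∧ r' ≠ p ∧ r ≠ ℓ ∧ r' ≠ ℓ ∧
      p ∣ orderOf (ℓ : ZMod r) ∧ p ∣ orderOf (ℓ : ZMod r') := by
  obtain ⟨r, r', hr, hr', hne, hrp, hr'p, hrℓ, hr'ℓ, hor, hor'⟩ :=
    auxPrime_orders hp hp2 hℓ.two_le hℓp
  refine ⟨r, r', hr, hr', hne, hrp, hr'p, ?_, ?_, hor ▸ dvd_refl p, hor' ▸ ⟨p, sq p⟩⟩
  · rintro rfl; exact hrℓ (dvd_refl _)
  · rintro rfl; exact hr'ℓ (dvd_refl _)

/-- **(X1) AuxPrime**, in the exact form of `CrossingInterface.lean`. -/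
theorem auxPrime : AuxPrime := fun _ _ hp hp2 hℓ hℓp => auxPrime_explicit hp hp2 hℓ hℓp

end Fermat.Agent.S14
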