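import Fermat.Agent.MUL.Orig.S14.CrossingInterface
import Fermat.Agent.MUL.Orig.S14.AuxPrime

/-!
# S14, piece (X1'): auxiliary Dirichlet characters of `p`-power order  (helper69)

`AuxChar` of `CrossingInterface.lean` is false when `r ∣ ℓ` (then `(ℓ : ZMod r) = 0` has
`orderOf = 0`, which is divisible by `p`, but every character vanishes at `0`).
We prove the statement with the additional hypothesis `¬ r ∣ ℓ`.
-/

set_option autoImplicit false

namespace Fermat.Agent.S14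

/-- **(X1') auxiliary characters**, corrected: with the hypothesis `¬ r ∣ ℓ`. -/
def AuxCharCoprime : Prop :=
  ∀ (p r ℓ : ℕ) (ω : ℂ), p.Prime → r.Prime → ¬ r ∣ ℓ → p ∣ orderOf (ℓ : ZMod r) →
    IsPrimitiveRoot ω p →
    ∃ χ : DirichletCharacter ℂ r, χ (ℓ : ZMod r) = ω ∧ ∃ k : ℕ, χ ^ (p ^ k) = 1

theorem auxCharCoprime : AuxCharCoprime := by
  intro p r ℓ ω hp hr hrℓ hord hω
  have : Fact r.Prime := ⟨hr⟩
  have hℓ0 : (ℓ : ZMod r) ≠ 0 := by
    rw [Ne, ZMod.natCast_eq_zero_iff]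
    exact hrℓ
  set u : (ZMod r)ˣ := Units.mk0 _ hℓ0 with hu
  have hucoe : ((u : (ZMod r)ˣ) : ZMod r) = (ℓ : ZMod r) := rfl
  set n : ℕ := Fintype.card (ZMod r)ˣ with hn
  have hnpos : 0 < n := Fintype.card_pos
  obtain ⟨g, hg⟩ := IsCyclic.exists_generator (α := (ZMod r)ˣ)
  have hgord : orderOf g = n := by
    rw [orderOf_eq_card_of_forall_mem_zpowers hg, Nat.card_eq_fintype_card]
  -- a primitive `n`-th root of unity in `ℂ`
  have hζ : IsPrimitiveRoot (Complex.exp (2 * Real.pi * Complex.I / n)) n :=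
    Complex.isPrimitiveRoot_exp n hnpos.ne'
  set ζ : ℂ := Complex.exp (2 * Real.pi * Complex.I / n) with hζdef
  set ζ' : ℂˣ := (hζ.isUnit hnpos.ne').unit with hζ'
  have hζ'coe : (ζ' : ℂ) = ζ := rfl
  have hζ'mem : ζ' ∈ rootsOfUnity (Fintype.card (ZMod r)ˣ) ℂ := by
    rw [mem_rootsOfUnity]
    ext
    push_cast
    rw [hζ'coe]
    exact hζ.pow_eq_one
  set χ₀ : MulChar (ZMod r) ℂ := MulChar.ofRootOfUnity hζ'mem hg with hχ₀
  have hχ₀g : χ₀ (g : ZMod r) = ζ := by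
    rw [hχ₀, MulChar.ofRootOfUnity_spec]
    rfl
  -- `u` is a power of `g`
  obtain ⟨k, hk⟩ : ∃ k : ℕ, g ^ k = u := by
    have := hg u
    rw [← mem_powers_iff_mem_zpowers] at this
    exact Submonoid.mem_powers_iff _ _ |>.mp this
  have hz : χ₀ (ℓ : ZMod r) = ζ ^ k := by
    rw [← hucoe, ← hk, Units.val_pow_eq_pow_val, map_pow, hχ₀g]
  -- the order of `χ₀ ℓ` is the order of `ℓ`
  have hordz : orderOf (ζ ^ k) = orderOf (ℓ : ZMod r) := by
    have hζfin : IsOfFinOrder ζ := isOfFinOrder_iff_pow_eq_one.mpr ⟨n, hnpos, hζ.pow_eq_one⟩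
    rw [← hucoe, orderOf_units, ← hk, hζfin.orderOf_pow, orderOf_pow g, hgord, ← hζ.eq_orderOf]
  set d : ℕ := orderOf (ℓ : ZMod r) with hd
  have hdpos : 0 < d := by
    rw [hd, ← hucoe, orderOf_units]
    exact orderOf_pos u
  have hzprim : IsPrimitiveRoot (ζ ^ k) d := by
    rw [← hordz]
    exact IsPrimitiveRoot.orderOf _
  obtain ⟨d', hd'⟩ := hord
  have hω₁ : IsPrimitiveRoot ((ζ ^ k) ^ d') p :=
    hzprim.pow hdpos (by rw [hd', mul_comm])
  have : NeZero p := ⟨hp.ne_zero⟩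
  obtain ⟨j, -, hj⟩ := hω₁.eq_pow_of_pow_eq_one hω.pow_eq_one
  -- `n = p ^ a * m` with `p ∤ m`
  obtain ⟨a, m, hpm, hnam⟩ := Nat.exists_eq_pow_mul_and_not_dvd hnpos.ne' p hp.ne_one
  have hcop : Nat.Coprime m p := ((Nat.Prime.coprime_iff_not_dvd hp).mpr hpm).symm
  have hmod : m ^ (p - 1) % p = 1 := by
    have h := Nat.ModEq.pow_totient hcop
    rw [Nat.totient_prime hp] at h
    have h1 : 1 % p = 1 := Nat.mod_eq_of_lt hp.one_lt
    rw [Nat.ModEq, h1] at h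
    exact h
  refine ⟨χ₀ ^ (d' * j * m ^ (p - 1)), ?_, a, ?_⟩
  · rw [← hucoe, MulChar.pow_apply_coe, hucoe, hz, mul_assoc, pow_mul, pow_mul, hj,
      pow_eq_pow_mod _ hω.pow_eq_one, hmod, pow_one]
  · have hp2 : p - 1 = (p - 2) + 1 := by have := hp.two_le; omega
    have hexp : d' * j * m ^ (p - 1) * p ^ a = Fintype.card (ZMod r)ˣ * (d' * j * m ^ (p - 2)) := by
      rw [← hn, hnam, hp2, pow_succ]
      ring
    rw [← pow_mul, hexp, pow_mul, MulChar.pow_card_eq_one, one_pow]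

end Fermat.Agent.S14
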