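import Fermat.Agent.MUL.Orig.S14.CrossingInterface
import Fermat.Agent.MUL.E.S12.Unram

/-!
# S14 (X3'): a prime ideal, prime to `m`, whose class is not a norm class

`FirstIneq → CoprimeRep → NonNormPrime` (helper13).
-/

set_option autoImplicit false

open NumberField
open scoped nonZeroDivisors

namespace Fermat.Agent.S14

section

variable {E M : Type} [Field E] [NumberField E] [Field M] [NumberField M] [Algebra E M]

theorem nnp_one_mem_normClasses : (1 : ClassGroup (𝓞 E)) ∈ normClasses E M := by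
  refine ⟨1, 1, ?_, map_one _⟩
  simp

theorem nnp_mul_mem_normClasses {c c' : ClassGroup (𝓞 E)} (hc : c ∈ normClasses E M)
    (hc' : c' ∈ normClasses E M) : c * c' ∈ normClasses E M := by
  obtain ⟨I, J, hJ, rfl⟩ := hc
  obtain ⟨I', J', hJ', rfl⟩ := hc'
  refine ⟨I * I', J * J', ?_, map_mul _ _ _⟩
  simp only [Submonoid.coe_mul, map_mul, hJ, hJ']

/-- The class of a nonzero ideal. -/
noncomputable def nnp_clsOf (J : Ideal (𝓞 E)) (hJ : J ≠ ⊥) : ClassGroup (𝓞 E) :=
  ClassGroup.mk0 ⟨J, mem_nonZeroDivisors_iff_ne_zero.mpr hJ⟩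

theorem nnp_clsOf_mul (J J' : Ideal (𝓞 E)) (hJ : J ≠ ⊥) (hJ' : J' ≠ ⊥) (h : J * J' ≠ ⊥) :
    nnp_clsOf (J * J') h = nnp_clsOf J hJ * nnp_clsOf J' hJ' := by
  unfold nnp_clsOf
  rw [← map_mul]
  rfl

/-- A nonzero ideal whose class is not a norm class has a prime factor whose class is not a
norm class. -/
theorem nnp_exists_prime_factor_not_norm (m : ℕ) (J : Ideal (𝓞 E)) :
    ∀ hJ : J ≠ ⊥, (Ideal.absNorm J).Coprime m → nnp_clsOf J hJ ∉ normClasses E M →
      ∃ (P : Ideal (𝓞 E)) (hP : P ≠ ⊥), P.IsPrime ∧ (Ideal.absNorm P).Coprime m ∧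
        nnp_clsOf P hP ∉ normClasses E M := by
  induction J using UniqueFactorizationMonoid.induction_on_prime with
  | h₁ => intro hJ; exact absurd rfl hJ
  | h₂ J hJu =>
    intro hJ _ hcls
    exfalso
    apply hcls
    have : J = ⊤ := by
      rw [← Ideal.one_eq_top]
      exact isUnit_iff_eq_one.mp hJu
    subst this
    have h1 : nnp_clsOf (⊤ : Ideal (𝓞 E)) hJ = 1 := by
      unfold nnp_clsOf
      rw [← map_one (ClassGroup.mk0 (R := 𝓞 E))]
      congr 1
      exact Subtype.ext Ideal.one_eq_top.symm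
    rw [h1]
    exact nnp_one_mem_normClasses
  | h₃ J P hJ0 hP ih =>
    intro hPJ hcop hcls
    have hP0 : P ≠ ⊥ := hP.ne_zero
    have hJ0' : J ≠ ⊥ := hJ0
    have hPprime : P.IsPrime := Ideal.isPrime_of_prime hP
    have hnorm : Ideal.absNorm (P * J) = Ideal.absNorm P * Ideal.absNorm J := map_mul _ _ _
    rw [hnorm] at hcop
    have hcopP : (Ideal.absNorm P).Coprime m := Nat.Coprime.coprime_mul_right hcop
    have hcopJ : (Ideal.absNorm J).Coprime m := Nat.Coprime.coprime_mul_left hcop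
    by_cases hPn : nnp_clsOf P hP0 ∈ normClasses E M
    · have hJn : nnp_clsOf J hJ0' ∉ normClasses E M := by
        intro hJn
        apply hcls
        rw [nnp_clsOf_mul P J hP0 hJ0' hPJ]
        exact nnp_mul_mem_normClasses hPn hJn
      exact ih hJ0' hcopJ hJn
    · exact ⟨P, hP0, hPprime, hcopP, hPn⟩

end

/-- **(X3')**: from the first inequality and the existence of coprime representatives, there is
a prime ideal prime to `m` whose class is not a norm class. -/
theorem nonNormPrimeImp : NonNormPrimeImp := by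
  intro hF hC p E M _ _ _ _ _ _ m hp hp2 hdeg hunr hm
  obtain ⟨c, hc⟩ := hF p E M hp hp2 hdeg hunr
  obtain ⟨I, hI, hcop⟩ := hC E m hm c
  have hI0 : (I : Ideal (𝓞 E)) ≠ ⊥ := mem_nonZeroDivisors_iff_ne_zero.mp I.2
  have hcls : nnp_clsOf (I : Ideal (𝓞 E)) hI0 ∉ normClasses E M := by
    have : nnp_clsOf (I : Ideal (𝓞 E)) hI0 = c := hI
    rw [this]
    exact hc
  obtain ⟨P, hP0, hPprime, hPcop, hPn⟩ := nnp_exists_prime_factor_not_norm m _ hI0 hcop hcls
  exact ⟨⟨P, mem_nonZeroDivisors_iff_ne_zero.mpr hP0⟩, hPprime, hPcop, hPn⟩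

end Fermat.Agent.S14
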