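import Fermat.Agent.MUL.Orig.S14.CrossingInterface
import Fermat.Agent.MUL.Lib.MultRed.Comp.Rho

/-!
# S14: `normClasses E M` is a subgroup of the class group containing all `[M:E]`-th powers
-/

set_option autoImplicit false

open NumberField
open scoped nonZeroDivisors

namespace Fermat.Agent.S14

section

variable (E M : Type) [Field E] [NumberField E] [Field M] [NumberField M] [Algebra E M]

theorem ncs_one_mem : (1 : ClassGroup (𝓞 E)) ∈ normClasses E M := by
  refine ⟨1, 1, ?_, map_one _⟩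
  rw [Submonoid.coe_one, Submonoid.coe_one, map_one]

theorem ncs_mul_mem {c d : ClassGroup (𝓞 E)} (hc : c ∈ normClasses E M)
    (hd : d ∈ normClasses E M) : c * d ∈ normClasses E M := by
  obtain ⟨I, J, hIJ, rfl⟩ := hc
  obtain ⟨I', J', hIJ', rfl⟩ := hd
  refine ⟨I * I', J * J', ?_, map_mul _ _ _⟩
  rw [Submonoid.coe_mul, Submonoid.coe_mul, map_mul, hIJ, hIJ']

theorem ncs_pow_mem {c : ClassGroup (𝓞 E)} (hc : c ∈ normClasses E M) (n : ℕ) :
    c ^ n ∈ normClasses E M := by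
  induction n with
  | zero => rw [pow_zero]; exact ncs_one_mem E M
  | succ n ih => rw [pow_succ]; exact ncs_mul_mem E M ih hc

theorem ncs_inv_mem {c : ClassGroup (𝓞 E)} (hc : c ∈ normClasses E M) :
    c⁻¹ ∈ normClasses E M := by
  classical
  have h1 : c ^ Nat.card (ClassGroup (𝓞 E)) = 1 := pow_card_eq_one'
  have hpos : 0 < Nat.card (ClassGroup (𝓞 E)) := Nat.card_pos
  have h2 : c⁻¹ = c ^ (Nat.card (ClassGroup (𝓞 E)) - 1) := by
    rw [inv_eq_iff_mul_eq_one, ← pow_succ',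
      Nat.sub_add_cancel hpos, h1]
  rw [h2]
  exact ncs_pow_mem E M hc _

theorem ncs_finrank_pow_mem (c : ClassGroup (𝓞 E)) :
    c ^ Module.finrank E M ∈ normClasses E M := by
  obtain ⟨J, rfl⟩ := ClassGroup.mk0_surjective c
  have hJ0 : (J : Ideal (𝓞 E)) ≠ ⊥ := nonZeroDivisors.coe_ne_zero J
  have hinj : Function.Injective (algebraMap (𝓞 E) (𝓞 M)) :=
    FaithfulSMul.algebraMap_injective (𝓞 E) (𝓞 M)
  have hmap0 : (J : Ideal (𝓞 E)).map (algebraMap (𝓞 E) (𝓞 M)) ≠ ⊥ := by
    intro h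
    exact hJ0 ((Ideal.map_eq_bot_iff_of_injective hinj).mp h)
  refine ⟨⟨(J : Ideal (𝓞 E)).map (algebraMap (𝓞 E) (𝓞 M)), mem_nonZeroDivisors_of_ne_zero hmap0⟩,
    J ^ Module.finrank E M, ?_, map_pow _ _ _⟩
  rw [SubmonoidClass.coe_pow]
  show (J : Ideal (𝓞 E)) ^ Module.finrank E M =
    Ideal.relNorm (𝓞 E) ((J : Ideal (𝓞 E)).map (algebraMap (𝓞 E) (𝓞 M)))
  rw [Ideal.relNorm_algebraMap, IsFractionRing.finrank_eq (𝓞 E) E (𝓞 M) M]

end

/-- `normClasses E M` is (the carrier of) a subgroup containing all `[M:E]`-th powers. -/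
theorem normClassesSubgroup : NormClassesSubgroup := by
  intro E M _ _ _ _ _
  refine ⟨{ carrier := normClasses E M
            mul_mem' := fun hc hd => ncs_mul_mem E M hc hd
            one_mem' := ncs_one_mem E M
            inv_mem' := fun hc => ncs_inv_mem E M hc }, rfl, fun c => ?_⟩
  exact ncs_finrank_pow_mem E M c

end Fermat.Agent.S14
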